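import Mathlib
import Fermat.Prelude.Def_GaloisRep_DeformationCondition
import Fermat.Agent.S53_helper35.MatDict
import Fermat.Agent.S53_helper35.MatDict2
import Fermat.Agent.S53_helper84.TestAlg
import Fermat.Agent.S53_helper15.LimitRing

/-!
The universal matrix representation over a complete local ring `R` receiving a map
`u : Λ → R` from the polynomial ring on the matrix entries, all of whose finite levels are good.
-/

set_option autoImplicit false

noncomputable section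

namespace Fermat.Agent.S53_helper61

open IsLocalRing Fermat.Agent.S53_helper35

/-- The polynomial ring on the matrix entries of a two-dimensional representation of `GQ`. -/
abbrev Lam (𝒪 : Type) [CommRing 𝒪] : Type := MvPolynomial (GQ × Fin 2 × Fin 2) 𝒪

section

variable {𝒪 : Type} [CommRing 𝒪] [IsLocalRing 𝒪]
variable (𝒟 : ∀ ⦃A : Type⦄ [CommRing A] [IsLocalRing A] [Algebra 𝒪 A], GaloisRepAdic A → Prop)

/-- An ideal `I` of `Λ` is a good level if `Λ ⧸ I` is a test algebra over which the tautological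
matrices form a continuous representation of type `𝒟`. -/
def GoodLevel (I : Ideal (Lam 𝒪)) : Prop :=
  ∃ (_ : IsLocalRing (Lam 𝒪 ⧸ I)) (_ : GaloisRep.IsArtinianTestAlgebra 𝒪 (Lam 𝒪 ⧸ I))
    (r : GQ →* Matrix (Fin 2) (Fin 2) (Lam 𝒪 ⧸ I)) (hr : MatCont r),
    (∀ σ i j, r σ i j = Ideal.Quotient.mk I (MvPolynomial.X (σ, i, j))) ∧ 𝒟 (ofMat r hr)

variable {R : Type} [CommRing R] [IsLocalRing R] [Algebra 𝒪 R]

/-- The composite `Λ → R → R ⧸ 𝔪ⁿ`. -/
def levelMap (u : Lam 𝒪 →ₐ[𝒪] R) (n : ℕ) : Lam 𝒪 →ₐ[𝒪] R ⧸ maximalIdeal R ^ n :=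
  (Ideal.Quotient.mkₐ 𝒪 (maximalIdeal R ^ n)).comp u

/-- The kernel of `Λ → R ⧸ 𝔪ⁿ`. -/
def levelKer (u : Lam 𝒪 →ₐ[𝒪] R) (n : ℕ) : Ideal (Lam 𝒪) := RingHom.ker (levelMap u n)

/-- The matrix of the images of the tautological entries. -/
def univMat (u : Lam 𝒪 →ₐ[𝒪] R) (σ : GQ) : Matrix (Fin 2) (Fin 2) R :=
  Matrix.of fun i j => u (MvPolynomial.X (σ, i, j))

theorem pow_ne_top {n : ℕ} (hn : 1 ≤ n) : maximalIdeal R ^ n ≠ ⊤ := by
  intro h
  have h1 : maximalIdeal R ^ n ≤ maximalIdeal R := by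
    calc maximalIdeal R ^ n ≤ maximalIdeal R ^ 1 := Ideal.pow_le_pow_right hn
      _ = maximalIdeal R := pow_one _
  rw [h] at h1
  exact (maximalIdeal.isMaximal R).ne_top (top_le_iff.mp h1)

/-- The induced map `Λ ⧸ ker → R ⧸ 𝔪ⁿ`. -/
def levelLift (u : Lam 𝒪 →ₐ[𝒪] R) (n : ℕ) :
    (Lam 𝒪 ⧸ levelKer u n) →ₐ[𝒪] R ⧸ maximalIdeal R ^ n :=
  Ideal.Quotient.liftₐ (levelKer u n) (levelMap u n) fun _ ha => ha

theorem levelLift_mk (u : Lam 𝒪 →ₐ[𝒪] R) (n : ℕ) (p : Lam 𝒪) :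
    levelLift u n (Ideal.Quotient.mk _ p) = Ideal.Quotient.mk _ (u p) := rfl

theorem levelLift_injective (u : Lam 𝒪 →ₐ[𝒪] R) (n : ℕ) :
    Function.Injective (levelLift u n) := by
  rw [injective_iff_map_eq_zero]
  intro x hx
  obtain ⟨p, rfl⟩ := Ideal.Quotient.mk_surjective x
  rw [levelLift_mk] at hx
  rw [Ideal.Quotient.eq_zero_iff_mem]
  show levelMap u n p = 0
  exact hx

end

section Univ

variable {𝒪 : Type} [CommRing 𝒪] [IsLocalRing 𝒪]
variable {𝒟 : ∀ ⦃A : Type⦄ [CommRing A] [IsLocalRing A] [Algebra 𝒪 A], GaloisRepAdic A → Prop}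
variable {R : Type} [CommRing R] [IsLocalRing R] [Algebra 𝒪 R]

theorem matrix_map_mul_hom {A B F : Type*} [CommRing A] [CommRing B] [FunLike F A B]
    [RingHomClass F A B] (f : F) (M N : Matrix (Fin 2) (Fin 2) A) :
    (M * N).map f = M.map f * N.map f := by
  ext i j
  simp [Matrix.mul_apply, map_mul]

theorem matrix_map_one_hom {A B F : Type*} [CommRing A] [CommRing B] [FunLike F A B]
    [RingHomClass F A B] (f : F) :
    (1 : Matrix (Fin 2) (Fin 2) A).map f = 1 :=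
  Matrix.map_one f (map_zero f) (map_one f)

theorem map_levelLift_eq (u : Lam 𝒪 →ₐ[𝒪] R) (n : ℕ)
    (M : Matrix (Fin 2) (Fin 2) (Lam 𝒪 ⧸ levelKer u n)) (σ : GQ)
    (hM : ∀ i j, M i j = Ideal.Quotient.mk _ (MvPolynomial.X (σ, i, j))) :
    M.map (levelLift u n) = (univMat u σ).map (Ideal.Quotient.mk (maximalIdeal R ^ n)) := by
  ext i j
  rw [Matrix.map_apply, Matrix.map_apply, hM, levelLift_mk]
  rfl

theorem eq_zero_of_forall_mem_pow' [IsHausdorff (maximalIdeal R) R] {x : R}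
    (hx : ∀ n, x ∈ maximalIdeal R ^ n) : x = 0 := by
  apply IsHausdorff.haus (inferInstance : IsHausdorff (maximalIdeal R) R)
  intro n
  rw [SModEq.zero, smul_eq_mul, Ideal.mul_top]
  exact hx n

theorem matrix_eq_of_forall_map_eq [IsHausdorff (maximalIdeal R) R]
    {M N : Matrix (Fin 2) (Fin 2) R}
    (h : ∀ n, 1 ≤ n → M.map (Ideal.Quotient.mk (maximalIdeal R ^ n)) =
      N.map (Ideal.Quotient.mk (maximalIdeal R ^ n))) : M = N := by
  ext i j
  rw [← sub_eq_zero]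
  apply eq_zero_of_forall_mem_pow'
  intro n
  rcases Nat.eq_zero_or_pos n with hn | hn
  · rw [hn, pow_zero, Ideal.one_eq_top]
    trivial
  · have h1 := congrFun (congrFun (h n hn) i) j
    rw [Matrix.map_apply, Matrix.map_apply] at h1
    exact Ideal.Quotient.eq.mp h1

theorem univMat_mul [IsHausdorff (maximalIdeal R) R] (u : Lam 𝒪 →ₐ[𝒪] R)
    (hgood : ∀ n, 1 ≤ n → GoodLevel 𝒟 (levelKer u n)) (σ τ : GQ) :
    univMat u (σ * τ) = univMat u σ * univMat u τ := by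
  apply matrix_eq_of_forall_map_eq
  intro n hn
  obtain ⟨_, _, r, _, hent, _⟩ := hgood n hn
  rw [matrix_map_mul_hom, ← map_levelLift_eq u n (r (σ * τ)) (σ * τ) (hent _),
    ← map_levelLift_eq u n (r σ) σ (hent σ), ← map_levelLift_eq u n (r τ) τ (hent τ),
    map_mul r, matrix_map_mul_hom]

theorem univMat_one [IsHausdorff (maximalIdeal R) R] (u : Lam 𝒪 →ₐ[𝒪] R)
    (hgood : ∀ n, 1 ≤ n → GoodLevel 𝒟 (levelKer u n)) :
    univMat u 1 = 1 := by
  apply matrix_eq_of_forall_map_eq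
  intro n hn
  obtain ⟨_, _, r, _, hent, _⟩ := hgood n hn
  rw [matrix_map_one_hom, ← map_levelLift_eq u n (r 1) 1 (hent _), map_one r,
    matrix_map_one_hom]

/-- The universal matrix representation. -/
def univRep [IsHausdorff (maximalIdeal R) R] (u : Lam 𝒪 →ₐ[𝒪] R)
    (hgood : ∀ n, 1 ≤ n → GoodLevel 𝒟 (levelKer u n)) : GQ →* Matrix (Fin 2) (Fin 2) R where
  toFun := univMat u
  map_one' := univMat_one u hgood
  map_mul' := univMat_mul u hgood

theorem univRep_apply [IsHausdorff (maximalIdeal R) R] (u : Lam 𝒪 →ₐ[𝒪] R)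
    (hgood : ∀ n, 1 ≤ n → GoodLevel 𝒟 (levelKer u n)) (σ : GQ) (i j : Fin 2) :
    univRep u hgood σ i j = u (MvPolynomial.X (σ, i, j)) := rfl

theorem matCont_univRep [IsHausdorff (maximalIdeal R) R] (u : Lam 𝒪 →ₐ[𝒪] R)
    (hgood : ∀ n, 1 ≤ n → GoodLevel 𝒟 (levelKer u n)) : MatCont (univRep u hgood) := by
  rw [matCont_iff_forall_quotient]
  intro n
  rcases Nat.eq_zero_or_pos n with hn | hn
  · refine ⟨⊥, inferInstance, fun σ _ => ?_⟩
    have : Subsingleton (R ⧸ maximalIdeal R ^ n) := by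
      rw [hn, pow_zero, Ideal.one_eq_top]
      exact Ideal.Quotient.subsingleton_iff.mpr rfl
    exact Subsingleton.elim _ _
  · obtain ⟨_, htest, r, hr, hent, _⟩ := hgood n hn
    obtain ⟨N, hN⟩ := Fermat.Agent.S53_helper84.exists_maximalIdeal_pow_eq_bot htest
    obtain ⟨L, hL, h⟩ := (matCont_iff_of_pow_eq_bot hN).mp hr
    refine ⟨L, hL, fun σ hσ => ?_⟩
    show (univMat u σ).map (Ideal.Quotient.mk (maximalIdeal R ^ n)) = 1
    rw [← map_levelLift_eq u n (r σ) σ (hent σ), h σ hσ, matrix_map_one_hom]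

/-- A local surjection from `R` onto a ring with `𝔪 ^ N = 0` kills `𝔪_R ^ n` for `N ≤ n`. -/
theorem map_eq_zero_of_mem_pow {B : Type} [CommRing B] [IsLocalRing B] (q : R →+* B)
    (hq : IsLocalHom q) {N n : ℕ} (hN : maximalIdeal B ^ N = ⊥) (hNn : N ≤ n) {x : R}
    (hx : x ∈ maximalIdeal R ^ n) : q x = 0 := by
  have h1 : q x ∈ maximalIdeal B ^ n :=
    map_maximalIdeal_pow_le q hq n (Ideal.mem_map_of_mem q hx)
  have h2 : maximalIdeal B ^ n ≤ maximalIdeal B ^ N := Ideal.pow_le_pow_right hNn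
  have h3 := h2 h1
  rw [hN, Ideal.mem_bot] at h3
  exact h3

theorem isOfType_of_levels (h𝒟 : GaloisRep.IsDeformationCondition 𝒪 𝒟)
    [IsNoetherianRing R] [IsAdicComplete (maximalIdeal R) R]
    (hloc : IsLocalHom (algebraMap 𝒪 R))
    (hres : Function.Surjective (IsLocalRing.residue R ∘ algebraMap 𝒪 R))
    (u : Lam 𝒪 →ₐ[𝒪] R) (hsurj : ∀ n, Function.Surjective (levelMap u n))
    (hgood : ∀ n, 1 ≤ n → GoodLevel 𝒟 (levelKer u n))
    (r : GQ →* Matrix (Fin 2) (Fin 2) R) (hr : MatCont r)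
    (hru : ∀ σ i j, r σ i j = u (MvPolynomial.X (σ, i, j))) :
    𝒟 (ofMat r hr) := by
  rw [h𝒟.iff_forall_surjective hloc hres]
  intro B _ _ _ hB q hq hqs
  obtain ⟨N, hN⟩ := Fermat.Agent.S53_helper84.exists_maximalIdeal_pow_eq_bot hB
  have hkill : ∀ x : R, x ∈ maximalIdeal R ^ (max N 1) → q x = 0 := fun x hx =>
    map_eq_zero_of_mem_pow (q : R →+* B) hq hN (le_max_left N 1) hx
  have hker : ∀ a ∈ levelKer u (max N 1), (q.comp u) a = 0 := by
    intro a ha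
    have h1 : Ideal.Quotient.mk (maximalIdeal R ^ (max N 1)) (u a) = 0 := ha
    rw [Ideal.Quotient.eq_zero_iff_mem] at h1
    exact hkill _ h1
  obtain ⟨hlocI, htestI, rI, hrI, hent, hDI⟩ := hgood (max N 1) (le_max_right N 1)
  let ψ : (Lam 𝒪 ⧸ levelKer u (max N 1)) →ₐ[𝒪] B :=
    Ideal.Quotient.liftₐ (levelKer u (max N 1)) (q.comp u) hker
  have hψmk : ∀ p : Lam 𝒪, ψ (Ideal.Quotient.mk _ p) = q (u p) := fun p => rfl
  have hψsurj : Function.Surjective ψ := by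
    intro b
    obtain ⟨x, rfl⟩ := hqs b
    obtain ⟨p, hp⟩ := hsurj (max N 1) (Ideal.Quotient.mk _ x)
    refine ⟨Ideal.Quotient.mk _ p, ?_⟩
    rw [hψmk]
    have h1 : u p - x ∈ maximalIdeal R ^ (max N 1) := Ideal.Quotient.eq.mp hp
    have h2 := hkill _ h1
    rw [map_sub, sub_eq_zero] at h2
    exact h2
  have hψloc : IsLocalHom (ψ : (Lam 𝒪 ⧸ levelKer u (max N 1)) →+* B) :=
    IsLocalHom.of_surjective _ hψsurj
  have h1 : 𝒟 ((ofMat rI hrI).baseChangeAlong (ψ : _ →+* B) hψloc) :=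
    h𝒟.baseChangeAlong htestI hB ψ hψloc hDI
  obtain ⟨e1⟩ := baseChangeAlong_ofMat_isEquiv (ψ : _ →+* B) hψloc rI hrI
  obtain ⟨e2⟩ := baseChangeAlong_ofMat_isEquiv (q : R →+* B) hq r hr
  have heq : mapMat (ψ : _ →+* B) rI = mapMat (q : R →+* B) r := by
    refine MonoidHom.ext fun σ => ?_
    ext i j
    rw [mapMat_apply, mapMat_apply, Matrix.map_apply, Matrix.map_apply, hent, hru]
    exact hψmk _
  obtain ⟨e3⟩ := isEquiv_ofMat_of_eq (matCont_mapMat (ψ : _ →+* B) hψloc hrI)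
    (matCont_mapMat (q : R →+* B) hq hr) heq
  exact h𝒟.of_isEquiv hB ⟨(e1.trans e3).trans e2.symm⟩ h1

theorem residual_isEquiv_of_entries
    (ρbar : ResidualGaloisRep (ResidueField 𝒪))
    (b : Module.Basis (Fin 2) (ResidueField 𝒪) ρbar.V)
    (ι : ResidueField 𝒪 →+* ResidueField R)
    (r : GQ →* Matrix (Fin 2) (Fin 2) R) (hr : MatCont r)
    (hred : ∀ σ i j, IsLocalRing.residue R (r σ i j) = ι (toMatRes ρbar b σ i j)) :
    (ofMat r hr).residual.IsEquiv (ρbar.baseChangeAlong ι) := by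
  have h : mapMat (IsLocalRing.residue R) r = mapMat ι (toMatRes ρbar b) := by
    refine MonoidHom.ext fun σ => ?_
    ext i j
    rw [mapMat_apply, mapMat_apply, Matrix.map_apply, Matrix.map_apply]
    exact hred σ i j
  obtain ⟨e1⟩ := residual_ofMat_isEquiv_of_eq r hr (toMatRes ρbar b) (resCont_toMatRes ρbar b) ι h
  obtain ⟨e2⟩ := baseChangeAlong_isEquiv_ofMatRes ι ρbar b
  exact ⟨e1.trans e2.symm⟩

/-- The matrix of tautological entries modulo an ideal. -/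
def tautMat (I : Ideal (Lam 𝒪)) (σ : GQ) : Matrix (Fin 2) (Fin 2) (Lam 𝒪 ⧸ I) :=
  Matrix.of fun i j => Ideal.Quotient.mk I (MvPolynomial.X (σ, i, j))

/-- The kernel of the evaluation map of a representation of type `𝒟` over a test algebra is a good
level. -/
theorem goodLevel_ker_of_test (h𝒟 : GaloisRep.IsDeformationCondition 𝒪 𝒟)
    [Finite (ResidueField 𝒪)] {B : Type} [CommRing B] [IsLocalRing B] [Algebra 𝒪 B]
    (hB : GaloisRep.IsArtinianTestAlgebra 𝒪 B)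
    (rB : GQ →* Matrix (Fin 2) (Fin 2) B) (hrB : MatCont rB) (hD : 𝒟 (ofMat rB hrB))
    (φ : Lam 𝒪 →ₐ[𝒪] B) (hφ : ∀ σ i j, φ (MvPolynomial.X (σ, i, j)) = rB σ i j) :
    GoodLevel 𝒟 (RingHom.ker (φ : Lam 𝒪 →+* B)) := by
  haveI : Finite B := Fermat.Agent.S53_helper84.finite_of_isArtinianTestAlgebra hB
  obtain ⟨N, hN⟩ := Fermat.Agent.S53_helper84.exists_maximalIdeal_pow_eq_bot hB
  let jj : (Lam 𝒪 ⧸ RingHom.ker (φ : Lam 𝒪 →+* B)) →ₐ[𝒪] B :=
    Ideal.Quotient.liftₐ (RingHom.ker (φ : Lam 𝒪 →+* B)) φ fun _ ha => ha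
  have hjmk : ∀ p : Lam 𝒪, jj (Ideal.Quotient.mk _ p) = φ p := fun p => rfl
  have hj : Function.Injective jj := by
    rw [injective_iff_map_eq_zero]
    intro x hx
    obtain ⟨p, rfl⟩ := Ideal.Quotient.mk_surjective x
    rw [hjmk] at hx
    rw [Ideal.Quotient.eq_zero_iff_mem]
    exact hx
  obtain ⟨hloc, htest, hjloc⟩ :=
    Fermat.Agent.S53_helper84.isArtinianTestAlgebra_of_injective hB jj hj
  have hmap : ∀ σ, (tautMat (RingHom.ker (φ : Lam 𝒪 →+* B)) σ).map jj = rB σ := by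
    intro σ
    ext i j
    rw [Matrix.map_apply]
    show jj (Ideal.Quotient.mk _ (MvPolynomial.X (σ, i, j))) = rB σ i j
    rw [hjmk, hφ]
  have hinj : Function.Injective fun M : Matrix (Fin 2) (Fin 2)
      (Lam 𝒪 ⧸ RingHom.ker (φ : Lam 𝒪 →+* B)) => M.map jj := Matrix.map_injective hj
  let rI : GQ →* Matrix (Fin 2) (Fin 2) (Lam 𝒪 ⧸ RingHom.ker (φ : Lam 𝒪 →+* B)) :=
    { toFun := tautMat (RingHom.ker (φ : Lam 𝒪 →+* B))
      map_one' := by
        apply hinj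
        show (tautMat (RingHom.ker (φ : Lam 𝒪 →+* B)) 1).map jj =
          (1 : Matrix (Fin 2) (Fin 2) (Lam 𝒪 ⧸ RingHom.ker (φ : Lam 𝒪 →+* B))).map jj
        rw [hmap, matrix_map_one_hom, map_one]
      map_mul' := by
        intro σ τ
        apply hinj
        show (tautMat (RingHom.ker (φ : Lam 𝒪 →+* B)) (σ * τ)).map jj =
          (tautMat (RingHom.ker (φ : Lam 𝒪 →+* B)) σ *
            tautMat (RingHom.ker (φ : Lam 𝒪 →+* B)) τ).map jj
        rw [matrix_map_mul_hom, hmap, hmap, hmap, map_mul] }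
  have hrImap : mapMat (jj : _ →+* B) rI = rB := MonoidHom.ext fun σ => hmap σ
  have hrI : MatCont rI := by
    apply matCont_of_mapMat_injective (jj : _ →+* B) hj hN
    rw [hrImap]
    exact hrB
  refine ⟨hloc, htest, rI, hrI, fun σ i j => rfl, ?_⟩
  refine h𝒟.of_baseChangeAlong_injective htest hB jj hjloc hj ?_
  obtain ⟨e1⟩ := baseChangeAlong_ofMat_isEquiv (jj : _ →+* B) hjloc rI hrI
  obtain ⟨e2⟩ := isEquiv_ofMat_of_eq (matCont_mapMat (jj : _ →+* B) hjloc hrI) hrB hrImap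
  exact h𝒟.of_isEquiv hB ⟨(e1.trans e2).symm⟩ hD

/-- All finite levels of the evaluation map of a representation of type `𝒟` over a complete
local ring are good. -/
theorem goodLevel_levelKer (h𝒟 : GaloisRep.IsDeformationCondition 𝒪 𝒟)
    [Finite (ResidueField 𝒪)] {A : Type} [CommRing A] [IsLocalRing A] [IsNoetherianRing A]
    [IsAdicComplete (maximalIdeal A) A] [Algebra 𝒪 A]
    (hloc : IsLocalHom (algebraMap 𝒪 A))
    (hres : Function.Surjective (IsLocalRing.residue A ∘ algebraMap 𝒪 A))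
    (rA : GQ →* Matrix (Fin 2) (Fin 2) A) (hrA : MatCont rA) (hD : 𝒟 (ofMat rA hrA))
    (φ : Lam 𝒪 →ₐ[𝒪] A) (hφ : ∀ σ i j, φ (MvPolynomial.X (σ, i, j)) = rA σ i j)
    (n : ℕ) (hn : 1 ≤ n) : GoodLevel 𝒟 (levelKer φ n) := by
  haveI : IsLocalRing (A ⧸ maximalIdeal A ^ n) :=
    Fermat.Agent.S53_helper15.isLocalRing_quotient _ (pow_ne_top hn)
  have hqloc : IsLocalHom (Ideal.Quotient.mk (maximalIdeal A ^ n)) :=
    Fermat.Agent.S53_helper15.isLocalHom_quotient_mk _ (pow_ne_top hn)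
  haveI : Finite (ResidueField A) := by
    haveI := hloc
    refine Finite.of_surjective (ResidueField.map (algebraMap 𝒪 A)) ?_
    intro y
    obtain ⟨a, ha⟩ := hres y
    exact ⟨residue 𝒪 a, ha⟩
  haveI : Finite (A ⧸ maximalIdeal A ^ n) := IsLocalRing.finite_quotient_iff.mpr ⟨n, le_rfl⟩
  have hB : GaloisRep.IsArtinianTestAlgebra 𝒪 (A ⧸ maximalIdeal A ^ n) := by
    refine Fermat.Agent.S53_helper84.isArtinianTestAlgebra_of_finite ?_ ?_
    · haveI := hloc
      haveI := hqloc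
      exact RingHom.isLocalHom_comp (Ideal.Quotient.mk (maximalIdeal A ^ n)) (algebraMap 𝒪 A)
    · intro y
      obtain ⟨x, rfl⟩ := IsLocalRing.residue_surjective y
      obtain ⟨x, rfl⟩ := Ideal.Quotient.mk_surjective x
      obtain ⟨a, ha⟩ := hres (IsLocalRing.residue A x)
      refine ⟨a, ?_⟩
      have h1 : algebraMap 𝒪 A a - x ∈ maximalIdeal A := by
        rw [← Ideal.Quotient.eq]
        exact ha
      show IsLocalRing.residue _ (Ideal.Quotient.mk _ (algebraMap 𝒪 A a)) = _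
      rw [← sub_eq_zero, ← map_sub, ← map_sub, IsLocalRing.residue_eq_zero_iff]
      haveI := hqloc
      exact map_nonunit (Ideal.Quotient.mk (maximalIdeal A ^ n)) _ h1
  let q : A →ₐ[𝒪] A ⧸ maximalIdeal A ^ n := Ideal.Quotient.mkₐ 𝒪 (maximalIdeal A ^ n)
  have hq : IsLocalHom (q : A →+* A ⧸ maximalIdeal A ^ n) := hqloc
  have hqs : Function.Surjective q := Ideal.Quotient.mk_surjective
  have h1 := (h𝒟.iff_forall_surjective hloc hres (ofMat rA hrA)).mp hD hB q hq hqs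
  obtain ⟨e1⟩ := baseChangeAlong_ofMat_isEquiv (q : A →+* A ⧸ maximalIdeal A ^ n) hq rA hrA
  have h2 := h𝒟.of_isEquiv hB ⟨e1⟩ h1
  exact goodLevel_ker_of_test h𝒟 hB _ _ h2 (levelMap φ n) fun σ i j => by
    show Ideal.Quotient.mk _ (φ (MvPolynomial.X (σ, i, j))) = _
    rw [hφ]
    rfl

/-- A proper ideal containing the first level kernel is contained in it. -/
theorem le_levelKer_one (u : Lam 𝒪 →ₐ[𝒪] R) (hsurj1 : Function.Surjective (levelMap u 1))
    (M : Ideal (Lam 𝒪)) (hM : M ≠ ⊤) (hle : levelKer u 1 ≤ M) : M ≤ levelKer u 1 := by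
  intro m hm
  by_contra hnot
  have h1 : u m ∉ maximalIdeal R := by
    intro h
    apply hnot
    show Ideal.Quotient.mk (maximalIdeal R ^ 1) (u m) = 0
    rw [Ideal.Quotient.eq_zero_iff_mem, pow_one]
    exact h
  have h2 : IsUnit (u m) := by
    by_contra h
    exact h1 ((IsLocalRing.mem_maximalIdeal _).mpr h)
  obtain ⟨v, hv⟩ := h2
  obtain ⟨p, hp⟩ := hsurj1 (Ideal.Quotient.mk _ (↑v⁻¹ : R))
  have h3 : u p - (↑v⁻¹ : R) ∈ maximalIdeal R ^ 1 := Ideal.Quotient.eq.mp hp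
  have h4 : p * m - 1 ∈ levelKer u 1 := by
    show Ideal.Quotient.mk (maximalIdeal R ^ 1) (u (p * m - 1)) = 0
    rw [Ideal.Quotient.eq_zero_iff_mem]
    have h5 : u (p * m - 1) = (u p - (↑v⁻¹ : R)) * u m := by
      rw [map_sub, map_mul, map_one, sub_mul, ← hv, Units.inv_mul]
    rw [h5]
    exact Ideal.mul_mem_right _ _ h3
  have h6 : p * m - 1 ∈ M := hle h4
  have h7 : (1 : Lam 𝒪) ∈ M := by
    have h8 : (1 : Lam 𝒪) = p * m - (p * m - 1) := by ring
    rw [h8]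
    exact M.sub_mem (M.mul_mem_left p hm) h6
  exact hM ((Ideal.eq_top_iff_one M).mpr h7)

/-- The reduction of `u` modulo the maximal ideal is the given residual evaluation. -/
theorem residue_u_eq [IsLocalHom (algebraMap 𝒪 R)] (u : Lam 𝒪 →ₐ[𝒪] R)
    (hsurj1 : Function.Surjective (levelMap u 1))
    (ev : Lam 𝒪 →ₐ[𝒪] ResidueField 𝒪)
    (hle : levelKer u 1 ≤ RingHom.ker (ev : Lam 𝒪 →+* ResidueField 𝒪)) (p : Lam 𝒪) :
    IsLocalRing.residue R (u p) = ResidueField.map (algebraMap 𝒪 R) (ev p) := by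
  have hne : RingHom.ker (ev : Lam 𝒪 →+* ResidueField 𝒪) ≠ ⊤ :=
    RingHom.ker_ne_top (ev : Lam 𝒪 →+* ResidueField 𝒪)
  have hM := le_levelKer_one u hsurj1 _ hne hle
  obtain ⟨a, ha⟩ := IsLocalRing.residue_surjective (ev p)
  have h1 : p - algebraMap 𝒪 (Lam 𝒪) a ∈ RingHom.ker (ev : Lam 𝒪 →+* ResidueField 𝒪) := by
    rw [RingHom.mem_ker, map_sub]
    show ev p - ev (algebraMap 𝒪 (Lam 𝒪) a) = 0
    rw [AlgHom.commutes, sub_eq_zero, ← ha]
    rfl
  have h2 : Ideal.Quotient.mk (maximalIdeal R ^ 1) (u (p - algebraMap 𝒪 (Lam 𝒪) a)) = 0 :=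
    hM h1
  rw [Ideal.Quotient.eq_zero_iff_mem, pow_one, map_sub, AlgHom.commutes] at h2
  have h3 : IsLocalRing.residue R (u p) = IsLocalRing.residue R (algebraMap 𝒪 R a) := by
    rw [← sub_eq_zero, ← map_sub, IsLocalRing.residue_eq_zero_iff]
    exact h2
  rw [h3, ← ha, IsLocalRing.ResidueField.map_residue]

/-- The base change of a matrix representation along a local homomorphism sending its entries
to those of `rA` is equivalent to anything equivalent to `rA`. -/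
theorem baseChangeAlong_isEquiv_of_entries {A : Type} [CommRing A] [IsLocalRing A]
    (ψ : R →+* A) (hψ : IsLocalHom ψ)
    (r : GQ →* Matrix (Fin 2) (Fin 2) R) (hr : MatCont r)
    (rA : GQ →* Matrix (Fin 2) (Fin 2) A) (hrA : MatCont rA)
    (h : ∀ σ i j, ψ (r σ i j) = rA σ i j)
    (ρA : GaloisRepAdic A) (hρA : ρA.IsEquiv (ofMat rA hrA)) :
    ((ofMat r hr).baseChangeAlong ψ hψ).IsEquiv ρA := by
  obtain ⟨e1⟩ := baseChangeAlong_ofMat_isEquiv ψ hψ r hr
  have heq : mapMat ψ r = rA := by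
    refine MonoidHom.ext fun σ => ?_
    ext i j
    rw [mapMat_apply, Matrix.map_apply]
    exact h σ i j
  obtain ⟨e2⟩ := isEquiv_ofMat_of_eq (matCont_mapMat ψ hψ hr) hrA heq
  obtain ⟨e3⟩ := hρA
  exact ⟨(e1.trans e2).trans e3.symm⟩

/-- Conversely, an equivalence of the base change with `ofMat rA` gives a conjugating matrix. -/
theorem exists_conj_of_baseChangeAlong_isEquiv {A : Type} [CommRing A] [IsLocalRing A]
    (ψ : R →+* A) (hψ : IsLocalHom ψ)
    (r : GQ →* Matrix (Fin 2) (Fin 2) R) (hr : MatCont r)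
    (rA : GQ →* Matrix (Fin 2) (Fin 2) A) (hrA : MatCont rA)
    (h : ((ofMat r hr).baseChangeAlong ψ hψ).IsEquiv (ofMat rA hrA)) :
    ∃ P : GL (Fin 2) A, ∀ σ,
      (P : Matrix (Fin 2) (Fin 2) A) * (r σ).map ψ = rA σ * (P : Matrix (Fin 2) (Fin 2) A) := by
  obtain ⟨e1⟩ := baseChangeAlong_ofMat_isEquiv ψ hψ r hr
  obtain ⟨e2⟩ := h
  exact (ofMat_isEquiv_iff (matCont_mapMat ψ hψ hr) hrA).mp ⟨e1.symm.trans e2⟩

/-- The universal representation attached to `(R, u)` with all levels good: existence, type and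
residual representation. -/
theorem exists_univRep (h𝒟 : GaloisRep.IsDeformationCondition 𝒪 𝒟)
    [IsNoetherianRing R] [IsAdicComplete (maximalIdeal R) R] [IsLocalHom (algebraMap 𝒪 R)]
    (hres : Function.Surjective (IsLocalRing.residue R ∘ algebraMap 𝒪 R))
    (u : Lam 𝒪 →ₐ[𝒪] R) (hsurj : ∀ n, Function.Surjective (levelMap u n))
    (hgood : ∀ n, 1 ≤ n → GoodLevel 𝒟 (levelKer u n))
    (ρbar : ResidualGaloisRep (ResidueField 𝒪))
    (b : Module.Basis (Fin 2) (ResidueField 𝒪) ρbar.V)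
    (ev : Lam 𝒪 →ₐ[𝒪] ResidueField 𝒪)
    (hev : ∀ σ i j, ev (MvPolynomial.X (σ, i, j)) = toMatRes ρbar b σ i j)
    (hle : levelKer u 1 ≤ RingHom.ker (ev : Lam 𝒪 →+* ResidueField 𝒪)) :
    ∃ (r : GQ →* Matrix (Fin 2) (Fin 2) R) (hr : MatCont r),
      (∀ σ i j, r σ i j = u (MvPolynomial.X (σ, i, j))) ∧ 𝒟 (ofMat r hr) ∧
      (ofMat r hr).residual.IsEquiv
        (ρbar.baseChangeAlong (ResidueField.map (algebraMap 𝒪 R))) := by
  refine ⟨univRep u hgood, matCont_univRep u hgood, fun σ i j => rfl, ?_, ?_⟩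
  · exact isOfType_of_levels h𝒟 inferInstance hres u hsurj hgood _ _ fun σ i j => rfl
  · refine residual_isEquiv_of_entries ρbar b _ _ _ fun σ i j => ?_
    rw [univRep_apply, residue_u_eq u (hsurj 1) ev hle, hev]

end Univ

end Fermat.Agent.S53_helper61

end
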