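import Mathlib

/-!
The mapping property of a "pro-representing" ring: if `u : Λ → R` has dense image for the
`𝔪_R`-adic topology and `φ : Λ → A` into a complete local ring has all its finite-level kernels
containing finite-level kernels of `u`, then `φ` factors through `u`.
-/

set_option autoImplicit false

noncomputable section

namespace Fermat.Agent.S53_helper61

open IsLocalRing

section MapOut

variable {𝒪 Λ R A : Type} [CommRing 𝒪] [CommRing Λ] [Algebra 𝒪 Λ]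
  [CommRing R] [IsLocalRing R] [Algebra 𝒪 R] [CommRing A] [IsLocalRing A] [Algebra 𝒪 A]

/-- The composite `Λ → R → R ⧸ 𝔪ⁿ`. -/
def lvMap (u : Λ →ₐ[𝒪] R) (n : ℕ) : Λ →ₐ[𝒪] R ⧸ maximalIdeal R ^ n :=
  (Ideal.Quotient.mkₐ 𝒪 (maximalIdeal R ^ n)).comp u

theorem lvMap_apply (u : Λ →ₐ[𝒪] R) (n : ℕ) (p : Λ) :
    lvMap u n p = Ideal.Quotient.mk (maximalIdeal R ^ n) (u p) := rfl

/-- The induced map `Λ ⧸ ker → R ⧸ 𝔪ⁿ`. -/
def lvLift (u : Λ →ₐ[𝒪] R) (n : ℕ) :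
    (Λ ⧸ RingHom.ker (lvMap u n)) →ₐ[𝒪] R ⧸ maximalIdeal R ^ n :=
  Ideal.Quotient.liftₐ (RingHom.ker (lvMap u n)) (lvMap u n) fun _ ha => ha

theorem lvLift_mk (u : Λ →ₐ[𝒪] R) (n : ℕ) (p : Λ) :
    lvLift u n (Ideal.Quotient.mk _ p) = Ideal.Quotient.mk _ (u p) := rfl

theorem lvLift_bijective (u : Λ →ₐ[𝒪] R) (n : ℕ) (hs : Function.Surjective (lvMap u n)) :
    Function.Bijective (lvLift u n) := by
  constructor
  · rw [injective_iff_map_eq_zero]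
    intro x hx
    obtain ⟨p, rfl⟩ := Ideal.Quotient.mk_surjective x
    rw [Ideal.Quotient.eq_zero_iff_mem]
    exact hx
  · intro y
    obtain ⟨p, hp⟩ := hs y
    exact ⟨Ideal.Quotient.mk _ p, hp⟩

/-- The isomorphism `Λ ⧸ ker ≃ R ⧸ 𝔪ⁿ` when `u` has dense image. -/
def lvEquiv (u : Λ →ₐ[𝒪] R) (n : ℕ) (hs : Function.Surjective (lvMap u n)) :
    (Λ ⧸ RingHom.ker (lvMap u n)) ≃ₐ[𝒪] R ⧸ maximalIdeal R ^ n :=
  AlgEquiv.ofBijective (lvLift u n) (lvLift_bijective u n hs)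

/-- The map `R → Λ ⧸ ker(Λ → R ⧸ 𝔪ⁿ)`. -/
def lvBack (u : Λ →ₐ[𝒪] R) (n : ℕ) (hs : Function.Surjective (lvMap u n)) :
    R →ₐ[𝒪] Λ ⧸ RingHom.ker (lvMap u n) :=
  ((lvEquiv u n hs).symm : (R ⧸ maximalIdeal R ^ n) →ₐ[𝒪] Λ ⧸ RingHom.ker (lvMap u n)).comp
    (Ideal.Quotient.mkₐ 𝒪 (maximalIdeal R ^ n))

theorem lvBack_u (u : Λ →ₐ[𝒪] R) (n : ℕ) (hs : Function.Surjective (lvMap u n)) (p : Λ) :
    lvBack u n hs (u p) = Ideal.Quotient.mk _ p := by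
  show (lvEquiv u n hs).symm (Ideal.Quotient.mk _ (u p)) = Ideal.Quotient.mk _ p
  rw [AlgEquiv.symm_apply_eq]
  rfl

theorem lvBack_eq_zero (u : Λ →ₐ[𝒪] R) (n : ℕ) (hs : Function.Surjective (lvMap u n)) {x : R}
    (hx : x ∈ maximalIdeal R ^ n) : lvBack u n hs x = 0 := by
  show (lvEquiv u n hs).symm (Ideal.Quotient.mk _ x) = 0
  rw [Ideal.Quotient.eq_zero_iff_mem.mpr hx, map_zero]

/-- The map `R → A ⧸ 𝔪ⁿ` induced by `φ` when a level kernel of `u` lies in that of `φ`. -/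
def stepMap (u : Λ →ₐ[𝒪] R) (m : ℕ) (hs : Function.Surjective (lvMap u m)) (φ : Λ →ₐ[𝒪] A)
    (n : ℕ) (h : RingHom.ker (lvMap u m) ≤ RingHom.ker (lvMap φ n)) :
    R →ₐ[𝒪] A ⧸ maximalIdeal A ^ n :=
  (Ideal.Quotient.liftₐ (RingHom.ker (lvMap u m)) (lvMap φ n) fun _ ha => h ha).comp
    (lvBack u m hs)

theorem stepMap_u (u : Λ →ₐ[𝒪] R) (m : ℕ) (hs : Function.Surjective (lvMap u m))
    (φ : Λ →ₐ[𝒪] A) (n : ℕ) (h : RingHom.ker (lvMap u m) ≤ RingHom.ker (lvMap φ n)) (p : Λ) :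
    stepMap u m hs φ n h (u p) = Ideal.Quotient.mk _ (φ p) := by
  show Ideal.Quotient.liftₐ (RingHom.ker (lvMap u m)) (lvMap φ n) (fun _ ha => h ha)
    (lvBack u m hs (u p)) = _
  rw [lvBack_u]
  rfl

theorem stepMap_eq_zero (u : Λ →ₐ[𝒪] R) (m : ℕ) (hs : Function.Surjective (lvMap u m))
    (φ : Λ →ₐ[𝒪] A) (n : ℕ) (h : RingHom.ker (lvMap u m) ≤ RingHom.ker (lvMap φ n)) {x : R}
    (hx : x ∈ maximalIdeal R ^ m) : stepMap u m hs φ n h x = 0 := by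
  show Ideal.Quotient.liftₐ (RingHom.ker (lvMap u m)) (lvMap φ n) (fun _ ha => h ha)
    (lvBack u m hs x) = _
  rw [lvBack_eq_zero u m hs hx, map_zero]

/-- **Mapping property.** -/
theorem exists_algHom_of_levelKer_le [IsAdicComplete (maximalIdeal A) A]
    (u : Λ →ₐ[𝒪] R) (hdense : ∀ n, Function.Surjective (lvMap u n)) (φ : Λ →ₐ[𝒪] A)
    (hker : ∀ n, ∃ m, RingHom.ker (lvMap u m) ≤ RingHom.ker (lvMap φ n)) :
    ∃ ψ : R →ₐ[𝒪] A, ψ.comp u = φ := by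
  choose m hm using hker
  let f : ∀ n, R →ₐ[𝒪] A ⧸ maximalIdeal A ^ n :=
    fun n => stepMap u (m n) (hdense (m n)) φ n (hm n)
  have hfu : ∀ n p, f n (u p) = Ideal.Quotient.mk _ (φ p) := fun n p => stepMap_u _ _ _ _ _ _ p
  have hf0 : ∀ n k x, m n ≤ k → x ∈ maximalIdeal R ^ k → f n x = 0 := fun n k x hk hx =>
    stepMap_eq_zero _ _ _ _ _ _ (Ideal.pow_le_pow_right hk hx)
  have hf : ∀ {a b : ℕ} (hle : a ≤ b),
      (Ideal.Quotient.factorₐ 𝒪 (Ideal.pow_le_pow_right hle)).comp (f b) = f a := by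
    intro a b hle
    apply AlgHom.ext
    intro x
    obtain ⟨p, hp⟩ := hdense (max (m a) (m b)) (Ideal.Quotient.mk _ x)
    have hx : x - u p ∈ maximalIdeal R ^ (max (m a) (m b)) := by
      rw [← Ideal.Quotient.eq]
      exact hp.symm
    have h1 : f b x = f b (u p) := by
      rw [← sub_eq_zero, ← map_sub]
      exact hf0 b _ _ (le_max_right _ _) hx
    have h2 : f a x = f a (u p) := by
      rw [← sub_eq_zero, ← map_sub]
      exact hf0 a _ _ (le_max_left _ _) hx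
    rw [AlgHom.comp_apply, h1, h2, hfu, hfu]
    rfl
  refine ⟨IsAdicComplete.liftAlgHom (maximalIdeal A) f hf, ?_⟩
  apply IsAdicComplete.algHom_ext (maximalIdeal A)
  intro n
  rw [← AlgHom.comp_assoc, IsAdicComplete.mkₐ_comp_liftAlgHom]
  apply AlgHom.ext
  intro p
  exact hfu n p

end MapOut

end Fermat.Agent.S53_helper61

end
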