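import Mathlib.RingTheory.Henselian
import Mathlib.LinearAlgebra.Matrix.NonsingularInverse
import Mathlib.LinearAlgebra.Matrix.Notation
import Mathlib.Data.Matrix.Basic
import Mathlib.Algebra.Algebra.Bilinear
import Mathlib.Tactic.LinearCombination
import Mathlib.Tactic.FinCases
import Mathlib.Tactic.Ring

/-!
Rigid normal form for 2x2 matrix representations over a local ring, defined through two fixed
formal linear combinations `x`, `y` of elements of `G`.
-/

namespace Fermat.Agent.S53_helper61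

open Matrix IsLocalRing

section GrEval

variable {𝒪 : Type*} [CommSemiring 𝒪] {G : Type*}

/-- Linear evaluation of a formal `𝒪`-combination `x` of elements of `G` along `ρ : G → B`. -/
noncomputable def grEval {B : Type*} [AddCommMonoid B] [Module 𝒪 B] (x : G →₀ 𝒪) (ρ : G → B) : B :=
  x.sum fun g a => a • ρ g

theorem grEval_linearMap {B B' : Type*} [AddCommMonoid B] [Module 𝒪 B] [AddCommMonoid B']
    [Module 𝒪 B'] (φ : B →ₗ[𝒪] B') (x : G →₀ 𝒪) (ρ : G → B) :
    φ (grEval x ρ) = grEval x (fun g => φ (ρ g)) := by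
  unfold grEval
  rw [Finsupp.sum, map_sum]
  simp only [map_smul]
  rfl

end GrEval

section Matrices

variable {𝒪 : Type*} [CommRing 𝒪] {G : Type*}
variable {A : Type*} [CommRing A] [Algebra 𝒪 A]

theorem mul_grEval (M : Matrix (Fin 2) (Fin 2) A) (x : G →₀ 𝒪) (ρ : G → Matrix (Fin 2) (Fin 2) A) :
    M * grEval x ρ = grEval x (fun g => M * ρ g) :=
  grEval_linearMap (LinearMap.mulLeft 𝒪 M) x ρ

theorem grEval_mul (M : Matrix (Fin 2) (Fin 2) A) (x : G →₀ 𝒪) (ρ : G → Matrix (Fin 2) (Fin 2) A) :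
    grEval x ρ * M = grEval x (fun g => ρ g * M) :=
  grEval_linearMap (LinearMap.mulRight 𝒪 M) x ρ

theorem grEval_intertwine {M : Matrix (Fin 2) (Fin 2) A} {ρ ρ' : G → Matrix (Fin 2) (Fin 2) A}
    (hM : ∀ g, M * ρ g = ρ' g * M) (x : G →₀ 𝒪) : M * grEval x ρ = grEval x ρ' * M := by
  rw [mul_grEval, grEval_mul]
  congr 1
  funext g
  exact hM g

theorem grEval_conj (M N : Matrix (Fin 2) (Fin 2) A) (x : G →₀ 𝒪)
    (ρ : G → Matrix (Fin 2) (Fin 2) A) :
    grEval x (fun g => M * ρ g * N) = M * grEval x ρ * N := by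
  rw [mul_grEval, grEval_mul]

theorem grEval_map {B : Type*} [CommRing B] [Algebra 𝒪 B] (φ : A →ₐ[𝒪] B) (x : G →₀ 𝒪)
    (ρ : G → Matrix (Fin 2) (Fin 2) A) :
    (grEval x ρ).map φ = grEval x (fun g => (ρ g).map φ) :=
  grEval_linearMap (φ.toLinearMap.mapMatrix (m := Fin 2) (n := Fin 2)) x ρ

end Matrices

section NF

variable {𝒪 : Type*} [CommRing 𝒪] {G : Type*}
variable {A : Type*} [CommRing A] [IsLocalRing A] [Algebra 𝒪 A]

/-- The rigid normal form: `ρ(x)` is diagonal with a unit and a non-unit on the diagonal, and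
the lower left entry of `ρ(y)` is `1`. -/
structure IsNF (x y : G →₀ 𝒪) (ρ : G → Matrix (Fin 2) (Fin 2) A) : Prop where
  x01 : grEval x ρ 0 1 = 0
  x10 : grEval x ρ 1 0 = 0
  x00 : IsUnit (grEval x ρ 0 0)
  x11 : grEval x ρ 1 1 ∈ maximalIdeal A
  y10 : grEval y ρ 1 0 = 1

/-- Rigidity: an intertwiner between two representations in normal form is a scalar matrix. -/
theorem IsNF.exists_eq_smul_one {x y : G →₀ 𝒪} {ρ ρ' : G → Matrix (Fin 2) (Fin 2) A}
    (h : IsNF x y ρ) (h' : IsNF x y ρ') {M : Matrix (Fin 2) (Fin 2) A}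
    (hM : ∀ g, M * ρ g = ρ' g * M) : ∃ c : A, M = c • (1 : Matrix (Fin 2) (Fin 2) A) := by
  have hx := grEval_intertwine hM x
  have hy := grEval_intertwine hM y
  set X := grEval x ρ with hX
  set X' := grEval x ρ' with hX'
  set Y := grEval y ρ with hY
  set Y' := grEval y ρ' with hY'
  -- entry (0,1)
  have e01 := congrFun (congrFun hx 0) 1
  have e10 := congrFun (congrFun hx 1) 0
  have e10y := congrFun (congrFun hy 1) 0
  simp only [Matrix.mul_apply, Fin.sum_univ_two] at e01 e10 e10y
  have hx01 : X 0 1 = 0 := h.x01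
  have hx10 : X 1 0 = 0 := h.x10
  have hx01' : X' 0 1 = 0 := h'.x01
  have hx10' : X' 1 0 = 0 := h'.x10
  have hy10 : Y 1 0 = 1 := h.y10
  have hy10' : Y' 1 0 = 1 := h'.y10
  rw [hx01, hx01'] at e01
  rw [hx10, hx10'] at e10
  -- M 0 1 * (X 1 1 - X' 0 0) = 0
  have u1 : IsUnit (X' 0 0 - X 1 1) := by
    have := h'.x00
    by_contra hcon
    have hmem : X' 0 0 - X 1 1 ∈ maximalIdeal A := (mem_maximalIdeal _).2 hcon
    have : X' 0 0 ∈ maximalIdeal A := by
      have h3 := (maximalIdeal A).add_mem hmem h.x11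
      have h4 : X' 0 0 - X 1 1 + grEval x ρ 1 1 = X' 0 0 := by rw [hX]; ring
      rwa [h4] at h3
    exact ((mem_maximalIdeal _).1 this) h'.x00
  have u2 : IsUnit (X 0 0 - X' 1 1) := by
    by_contra hcon
    have hmem : X 0 0 - X' 1 1 ∈ maximalIdeal A := (mem_maximalIdeal _).2 hcon
    have : X 0 0 ∈ maximalIdeal A := by
      have h3 := (maximalIdeal A).add_mem hmem h'.x11
      have h4 : X 0 0 - X' 1 1 + grEval x ρ' 1 1 = X 0 0 := by rw [hX']; ring
      rwa [h4] at h3
    exact ((mem_maximalIdeal _).1 this) h.x00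
  have m01 : M 0 1 = 0 := by
    have : M 0 1 * (X' 0 0 - X 1 1) = 0 := by linear_combination -e01
    exact (u1.mul_left_eq_zero).1 this
  have m10 : M 1 0 = 0 := by
    have : M 1 0 * (X 0 0 - X' 1 1) = 0 := by linear_combination e10
    exact (u2.mul_left_eq_zero).1 this
  have m11 : M 1 1 = M 0 0 := by
    rw [m10, hy10, hy10'] at e10y
    linear_combination e10y
  refine ⟨M 0 0, ?_⟩
  ext i j
  fin_cases i <;> fin_cases j <;> simp [m01, m10, m11]

/-- Two conjugate representations in normal form are equal. -/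
theorem IsNF.eq_of_conj {x y : G →₀ 𝒪} {ρ ρ' : G → Matrix (Fin 2) (Fin 2) A}
    (h : IsNF x y ρ) (h' : IsNF x y ρ') {M : Matrix (Fin 2) (Fin 2) A} (hdet : IsUnit M.det)
    (hM : ∀ g, M * ρ g = ρ' g * M) : ρ = ρ' := by
  obtain ⟨c, rfl⟩ := h.exists_eq_smul_one h' hM
  have hc : IsUnit c := by
    rw [Matrix.det_smul, Matrix.det_one, mul_one] at hdet
    exact (isUnit_pow_iff (by simp)).1 hdet
  funext g
  have := hM g
  rw [Matrix.smul_mul, Matrix.mul_smul, one_mul, mul_one] at this
  obtain ⟨u, rfl⟩ := hc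
  have h2 := congrArg (fun Z => (↑u⁻¹ : A) • Z) this
  simpa [smul_smul] using h2

/-- The normal form is preserved by local `𝒪`-algebra homomorphisms. -/
theorem IsNF.map {B : Type*} [CommRing B] [IsLocalRing B] [Algebra 𝒪 B] (φ : A →ₐ[𝒪] B)
    [IsLocalHom φ] {x y : G →₀ 𝒪} {ρ : G → Matrix (Fin 2) (Fin 2) A} (h : IsNF x y ρ) :
    IsNF x y (fun g => (ρ g).map φ) := by
  have hx : grEval x (fun g => (ρ g).map φ) = (grEval x ρ).map φ := (grEval_map φ x ρ).symm
  have hy : grEval y (fun g => (ρ g).map φ) = (grEval y ρ).map φ := (grEval_map φ y ρ).symm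
  refine ⟨?_, ?_, ?_, ?_, ?_⟩
  · rw [hx, Matrix.map_apply, h.x01, map_zero]
  · rw [hx, Matrix.map_apply, h.x10, map_zero]
  · rw [hx, Matrix.map_apply]; exact h.x00.map φ
  · rw [hx, Matrix.map_apply]
    exact (mem_maximalIdeal _).2 ((map_mem_nonunits_iff φ _).2 ((mem_maximalIdeal _).1 h.x11))
  · rw [hy, Matrix.map_apply, h.y10, map_one]

/-- The normal form descends along injective local `𝒪`-algebra homomorphisms. -/
theorem IsNF.of_map_injective {B : Type*} [CommRing B] [IsLocalRing B] [Algebra 𝒪 B]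
    (φ : A →ₐ[𝒪] B) [IsLocalHom φ] (hφ : Function.Injective φ) {x y : G →₀ 𝒪}
    {ρ : G → Matrix (Fin 2) (Fin 2) A} (h : IsNF x y (fun g => (ρ g).map φ)) : IsNF x y ρ := by
  have hx : grEval x (fun g => (ρ g).map φ) = (grEval x ρ).map φ := (grEval_map φ x ρ).symm
  have hy : grEval y (fun g => (ρ g).map φ) = (grEval y ρ).map φ := (grEval_map φ y ρ).symm
  have h01 := h.x01
  have h10 := h.x10
  have h00 := h.x00
  have h11 := h.x11
  have hy10 := h.y10
  rw [hx, Matrix.map_apply] at h01 h10 h00 h11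
  rw [hy, Matrix.map_apply] at hy10
  refine ⟨?_, ?_, ?_, ?_, ?_⟩
  · exact hφ (by rw [h01, map_zero])
  · exact hφ (by rw [h10, map_zero])
  · exact isUnit_of_map_unit φ _ h00
  · refine (mem_maximalIdeal _).2 fun hu => ?_
    exact ((mem_maximalIdeal _).1 h11) (hu.map φ)
  · exact hφ (by rw [hy10, map_one])

/-- The normal form on a fibre product (or any local ring with two jointly injective local
projections) can be checked on the two factors. -/
theorem IsNF.of_jointly_injective {B C : Type*} [CommRing B] [IsLocalRing B] [Algebra 𝒪 B]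
    [CommRing C] [IsLocalRing C] [Algebra 𝒪 C] (pB : A →ₐ[𝒪] B) (pC : A →ₐ[𝒪] C)
    [IsLocalHom pB] (hinj : Function.Injective fun a => (pB a, pC a)) {x y : G →₀ 𝒪}
    {ρ : G → Matrix (Fin 2) (Fin 2) A} (hB : IsNF x y (fun g => (ρ g).map pB))
    (hC : IsNF x y (fun g => (ρ g).map pC)) : IsNF x y ρ := by
  have hxB : grEval x (fun g => (ρ g).map pB) = (grEval x ρ).map pB := (grEval_map pB x ρ).symm
  have hyB : grEval y (fun g => (ρ g).map pB) = (grEval y ρ).map pB := (grEval_map pB y ρ).symm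
  have hxC : grEval x (fun g => (ρ g).map pC) = (grEval x ρ).map pC := (grEval_map pC x ρ).symm
  have hyC : grEval y (fun g => (ρ g).map pC) = (grEval y ρ).map pC := (grEval_map pC y ρ).symm
  have b01 := hB.x01
  have b10 := hB.x10
  have b00 := hB.x00
  have b11 := hB.x11
  have by10 := hB.y10
  have c01 := hC.x01
  have c10 := hC.x10
  have cy10 := hC.y10
  rw [hxB, Matrix.map_apply] at b01 b10 b00 b11
  rw [hyB, Matrix.map_apply] at by10
  rw [hxC, Matrix.map_apply] at c01 c10
  rw [hyC, Matrix.map_apply] at cy10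
  refine ⟨?_, ?_, ?_, ?_, ?_⟩
  · exact hinj (by simp [b01, c01])
  · exact hinj (by simp [b10, c10])
  · exact isUnit_of_map_unit pB _ b00
  · refine (mem_maximalIdeal _).2 fun hu => ?_
    exact ((mem_maximalIdeal _).1 b11) (hu.map pB)
  · exact hinj (by simp [by10, cy10])

end NF

section Existence

variable {𝒪 : Type*} [CommRing 𝒪] {G : Type*}
variable {A : Type*} [CommRing A] [HenselianLocalRing A] [Algebra 𝒪 A]

/-- Key quadratic Hensel step: for a unit `u` and `q` in the maximal ideal there is a root `w` of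
`T^2 - u T - q` congruent to `u`. -/
theorem exists_root_quadratic (u q : A) (hu : IsUnit u) (hq : q ∈ maximalIdeal A) :
    ∃ w : A, w * w - u * w - q = 0 ∧ w - u ∈ maximalIdeal A := by
  classical
  let f : Polynomial A := Polynomial.X ^ 2 - Polynomial.C u * Polynomial.X - Polynomial.C q
  have hf : f.Monic := by
    have h1 : f = Polynomial.X ^ 2 - (Polynomial.C u * Polynomial.X + Polynomial.C q) := by
      simp only [f]; ring
    rw [h1]
    apply Polynomial.monic_X_pow_sub
    refine lt_of_le_of_lt (Polynomial.degree_add_le _ _) ?_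
    refine max_lt ?_ ?_
    · refine lt_of_le_of_lt (Polynomial.degree_C_mul_X_le u) ?_
      norm_num
    · refine lt_of_le_of_lt Polynomial.degree_C_le ?_
      norm_num
  have h1 : f.eval u ∈ maximalIdeal A := by
    have : f.eval u = -q := by simp [f]; ring
    rw [this]
    exact (maximalIdeal A).neg_mem hq
  have h2 : IsUnit (f.derivative.eval u) := by
    have : f.derivative.eval u = u := by
      simp [f]; ring
    rw [this]; exact hu
  obtain ⟨w, hw, hwu⟩ := HenselianLocalRing.is_henselian f hf u h1 h2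
  refine ⟨w, ?_, hwu⟩
  have : f.eval w = 0 := hw
  simp [f] at this
  linear_combination this

/-- Diagonalisation step: a matrix congruent to a diagonal matrix with distinct residues is
conjugate to a diagonal matrix, via an explicit matrix congruent to a unit scalar. -/
theorem exists_diagonalise (X : Matrix (Fin 2) (Fin 2) A) (hu : IsUnit (X 0 0 - X 1 1))
    (hb : X 0 1 ∈ maximalIdeal A) :
    ∃ w : A, IsUnit w ∧ w - (X 0 0 - X 1 1) ∈ maximalIdeal A ∧
      !![w, X 0 1; -X 1 0, w] * X = !![X 1 1 + w, 0; 0, X 0 0 - w] * !![w, X 0 1; -X 1 0, w] := by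
  obtain ⟨w, hw, hwu⟩ := exists_root_quadratic (X 0 0 - X 1 1) (X 0 1 * X 1 0) hu
    ((maximalIdeal A).mul_mem_right _ hb)
  have hwunit : IsUnit w := by
    by_contra hcon
    have h1 : w ∈ maximalIdeal A := (mem_maximalIdeal _).2 hcon
    have h2 : X 0 0 - X 1 1 ∈ maximalIdeal A := by
      have := (maximalIdeal A).sub_mem h1 hwu
      simpa using this
    exact ((mem_maximalIdeal _).1 h2) hu
  refine ⟨w, hwunit, hwu, ?_⟩
  ext i j
  fin_cases i <;> fin_cases j
  · simp [Matrix.mul_apply, Fin.sum_univ_two]; linear_combination -hw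
  · simp [Matrix.mul_apply, Fin.sum_univ_two]; ring
  · simp [Matrix.mul_apply, Fin.sum_univ_two]; ring
  · simp [Matrix.mul_apply, Fin.sum_univ_two]; linear_combination hw

/-- Existence of the normal form over a Henselian local ring: if `ρ(x) ≡ E₁₁` and
`ρ(y)₂₁ ≡ 1` modulo the maximal ideal, then `ρ` is conjugate, by a matrix which is a unit scalar
modulo the maximal ideal, to a function in normal form, congruent to `ρ` modulo the maximal
ideal. -/
theorem exists_conj_isNF (x y : G →₀ 𝒪) (ρ : G → Matrix (Fin 2) (Fin 2) A)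
    (hx00 : grEval x ρ 0 0 - 1 ∈ maximalIdeal A) (hx01 : grEval x ρ 0 1 ∈ maximalIdeal A)
    (hx10 : grEval x ρ 1 0 ∈ maximalIdeal A) (hx11 : grEval x ρ 1 1 ∈ maximalIdeal A)
    (hy10 : grEval y ρ 1 0 - 1 ∈ maximalIdeal A) :
    ∃ M N : Matrix (Fin 2) (Fin 2) A, M * N = 1 ∧ N * M = 1 ∧
      (∀ g, (M * ρ g * N).map (residue A) = (ρ g).map (residue A)) ∧
      IsNF x y (fun g => M * ρ g * N) := by
  classical
  set X := grEval x ρ with hX
  set Y := grEval y ρ with hY
  have one_add_unit : ∀ t : A, t ∈ maximalIdeal A → IsUnit (1 + t) := by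
    intro t ht
    by_contra hcon
    have h1 : 1 + t ∈ maximalIdeal A := (mem_maximalIdeal _).2 hcon
    have h2 : (1 : A) ∈ maximalIdeal A := by
      have := (maximalIdeal A).sub_mem h1 ht
      simp at this
    exact (maximalIdeal A).ne_top_iff_one.1 (maximalIdeal.isMaximal A).ne_top h2
  have unit_add : ∀ s t : A, IsUnit s → t ∈ maximalIdeal A → IsUnit (s + t) := by
    intro s t hs ht
    by_contra hcon
    have h1 : s + t ∈ maximalIdeal A := (mem_maximalIdeal _).2 hcon
    have h2 : s ∈ maximalIdeal A := by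
      have := (maximalIdeal A).sub_mem h1 ht
      simpa using this
    exact ((mem_maximalIdeal _).1 h2) hs
  have hu : IsUnit (X 0 0 - X 1 1) := by
    have h1 : X 0 0 - X 1 1 = 1 + ((X 0 0 - 1) - X 1 1) := by ring
    rw [h1]
    exact one_add_unit _ ((maximalIdeal A).sub_mem hx00 hx11)
  obtain ⟨w, hwunit, hwu, hM1⟩ := exists_diagonalise X hu hx01
  set M1 : Matrix (Fin 2) (Fin 2) A := !![w, X 0 1; -X 1 0, w] with hM1def
  set D : Matrix (Fin 2) (Fin 2) A := !![X 1 1 + w, 0; 0, X 0 0 - w] with hDdef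
  have hdet1 : IsUnit M1.det := by
    have h1 : M1.det = w * w + X 0 1 * X 1 0 := by
      rw [hM1def, Matrix.det_fin_two_of]; ring
    rw [h1]
    exact unit_add _ _ (hwunit.mul hwunit) ((maximalIdeal A).mul_mem_right _ hx01)
  set N1 := M1⁻¹ with hN1def
  have h1 : M1 * N1 = 1 := Matrix.mul_nonsing_inv M1 hdet1
  have h1' : N1 * M1 = 1 := Matrix.nonsing_inv_mul M1 hdet1
  have hX1 : M1 * X * N1 = D := by
    rw [hM1, mul_assoc, h1, mul_one]
  -- residues
  let R : Matrix (Fin 2) (Fin 2) A →+* Matrix (Fin 2) (Fin 2) (ResidueField A) :=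
    (residue A).mapMatrix
  have r01 : residue A (X 0 1) = 0 := (residue_eq_zero_iff _).2 hx01
  have r10 : residue A (X 1 0) = 0 := (residue_eq_zero_iff _).2 hx10
  have rw0 : residue A w ≠ 0 := by
    intro h0
    exact ((mem_maximalIdeal _).1 ((residue_eq_zero_iff _).1 h0)) hwunit
  have RM1 : R M1 = (residue A w) • (1 : Matrix (Fin 2) (Fin 2) (ResidueField A)) := by
    ext i j
    fin_cases i <;> fin_cases j <;> simp [R, hM1def, r01, r10]
  have RN1 : R N1 = (residue A w)⁻¹ • (1 : Matrix (Fin 2) (Fin 2) (ResidueField A)) := by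
    have h2 : R M1 * R N1 = 1 := by rw [← map_mul, h1, map_one]
    rw [RM1, Matrix.smul_mul, one_mul] at h2
    have h3 := congrArg (fun Z => (residue A w)⁻¹ • Z) h2
    simpa [smul_smul, inv_mul_cancel₀ rw0] using h3
  have Rconj1 : ∀ Z : Matrix (Fin 2) (Fin 2) A, R (M1 * Z * N1) = R Z := by
    intro Z
    rw [map_mul, map_mul, RM1, RN1, Matrix.smul_mul, one_mul, Matrix.mul_smul, mul_one,
      smul_smul, inv_mul_cancel₀ rw0, one_smul]
  set Y1 := M1 * Y * N1 with hY1def
  set v := Y1 1 0 with hvdef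
  have rv : residue A v = 1 := by
    have h2 : R Y1 = R Y := Rconj1 Y
    have h3 := congrFun (congrFun h2 1) 0
    simp only [R, RingHom.mapMatrix_apply, Matrix.map_apply] at h3
    rw [hvdef, h3]
    have h4 : residue A (Y 1 0 - 1) = 0 := (residue_eq_zero_iff _).2 hy10
    rw [map_sub, map_one, sub_eq_zero] at h4
    exact h4
  have hvunit : IsUnit v := by
    by_contra hcon
    have h2 : residue A v = 0 := (residue_eq_zero_iff _).2 ((mem_maximalIdeal _).2 hcon)
    rw [rv] at h2
    exact one_ne_zero h2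
  obtain ⟨vu, hvu⟩ := hvunit
  set vi : A := ↑vu⁻¹ with hvidef
  have hvvi : v * vi = 1 := by rw [← hvu, hvidef]; exact vu.mul_inv
  have hviv : vi * v = 1 := by rw [mul_comm]; exact hvvi
  have rvi : residue A vi = 1 := by
    have := congrArg (residue A) hvvi
    rw [map_mul, rv, one_mul, map_one] at this
    exact this
  set M2 : Matrix (Fin 2) (Fin 2) A := !![1, 0; 0, vi] with hM2def
  set N2 : Matrix (Fin 2) (Fin 2) A := !![1, 0; 0, v] with hN2def
  have h2 : M2 * N2 = 1 := by
    ext i j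
    fin_cases i <;> fin_cases j <;> simp [hM2def, hN2def, hviv]
  have h2' : N2 * M2 = 1 := by
    ext i j
    fin_cases i <;> fin_cases j <;> simp [hM2def, hN2def, hvvi]
  have RM2 : R M2 = 1 := by
    ext i j
    fin_cases i <;> fin_cases j <;> simp [R, hM2def, rvi]
  have RN2 : R N2 = 1 := by
    ext i j
    fin_cases i <;> fin_cases j <;> simp [R, hN2def, rv]
  refine ⟨M2 * M1, N1 * N2, ?_, ?_, ?_, ?_⟩
  · calc M2 * M1 * (N1 * N2) = M2 * (M1 * N1) * N2 := by simp only [mul_assoc]
      _ = 1 := by rw [h1, mul_one, h2]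
  · calc N1 * N2 * (M2 * M1) = N1 * (N2 * M2) * M1 := by simp only [mul_assoc]
      _ = 1 := by rw [h2', mul_one, h1']
  · intro g
    have h3 : R (M2 * M1 * ρ g * (N1 * N2)) = R (ρ g) := by
      have : M2 * M1 * ρ g * (N1 * N2) = M2 * (M1 * ρ g * N1) * N2 := by simp only [mul_assoc]
      rw [this, map_mul, map_mul, RM2, RN2, one_mul, mul_one, Rconj1]
    simpa [R, RingHom.mapMatrix_apply] using h3
  · have hxconj : grEval x (fun g => M2 * M1 * ρ g * (N1 * N2)) = M2 * D * N2 := by
      rw [grEval_conj, ← hX, ← hX1]; simp only [mul_assoc]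
    have hyconj : grEval y (fun g => M2 * M1 * ρ g * (N1 * N2)) = M2 * Y1 * N2 := by
      rw [grEval_conj, ← hY, hY1def]; simp only [mul_assoc]
    have hD' : M2 * D * N2 = !![X 1 1 + w, 0; 0, X 0 0 - w] := by
      ext i j
      fin_cases i <;> fin_cases j <;> simp [hM2def, hN2def, hDdef]
      linear_combination (X 0 0 - w) * hviv
    refine ⟨?_, ?_, ?_, ?_, ?_⟩
    · rw [hxconj, hD']; simp
    · rw [hxconj, hD']; simp
    · rw [hxconj, hD']
      simp only [Matrix.of_apply, Matrix.cons_val_zero]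
      rw [add_comm]
      exact unit_add _ _ hwunit hx11
    · rw [hxconj, hD']
      simp only [Matrix.of_apply, Matrix.cons_val_one, Matrix.cons_val_zero]
      have : X 0 0 - w = X 1 1 - (w - (X 0 0 - X 1 1)) := by ring
      rw [this]
      exact (maximalIdeal A).sub_mem hx11 hwu
    · rw [hyconj]
      have e1 : (M2 * Y1 * N2) 1 0 = vi * v := by
        rw [Matrix.mul_apply, Fin.sum_univ_two, Matrix.mul_apply, Matrix.mul_apply,
          Fin.sum_univ_two, Fin.sum_univ_two]
        have a1 : M2 1 0 = 0 := by simp [hM2def]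
        have a2 : M2 1 1 = vi := by simp [hM2def]
        have a3 : N2 0 0 = 1 := by simp [hN2def]
        have a4 : N2 1 0 = 0 := by simp [hN2def]
        rw [a1, a2, a3, a4, hvdef]
        ring
      rw [e1, hviv]

end Existence

end Fermat.Agent.S53_helper61
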